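import Mathlib
import Fermat.Agent.LT.T7.H140.DownBasisQSpec
import Fermat.Agent.LT.T7.H468.OpsShift
import Fermat.Agent.LT.T7.H468.OpsIw

/-!
# Row LT, tower T7, leaf T7.L2Q.3.7.3 `SDQ140.OpsClassQC` -- PROVED (helper802)

OFF-MAIN.  `opsClassQC802 n : SDQ140.OpsClassQC n` VERBATIM against
`LT/T7/H140/DownBasisQSpec.lean` (helper140), UNCONDITIONAL, both `K_∞`-types.

Port over `ℚ` (type `n.type`, circle means `L2Q.MeanEigR0` / `L2Q.MeanEigR1`) of the proof of
the leaf `SD534.OpsClassC` by helper468 (`LT/T7/H468/{OpsShift,OpsIw,OpsClass}.lean`); the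
function-level tools of helper468 (`central_zpow468`, `iwOp_eigen468`, `iwOp_sum_eigen468`,
`iwOp_iw468`, `iwOp_level468`, `isCuspidalFn_iwOp468`, `comm_local468`) are reused as they are.
New here: the class over `ℚ` (`central_inClsQ802`, `iw_inClsQ802`) and the circle means
(`meanEigR0_iwOp802`, `meanEigR1_iwOp802`, continuity of the circle family by
`T2.H472.locCont472`).
-/

set_option autoImplicit false
set_option linter.unusedSectionVars false
set_option linter.unusedVariables false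
set_option linter.style.haveILetI false

open AutomorphicForm IsDedekindDomain NumberField MeasureTheory Matrix
open scoped ComplexConjugate

noncomputable section

namespace Fermat.Agent.LT.T7.H802

open Fermat.Agent.LT.H556 Fermat.Agent.LT.H556.A0 Fermat.Agent.LT.H670 Fermat.Agent.LT.T7
open Fermat.Agent.LT.T7.L2Q Fermat.Agent.LT.T7.H468

/-! ## Translation by a central element -/

/-- The circle means of type `n` pass to the translate by a central element. -/
theorem central_meanEig802 (n : QWt) {ψ : G ℚ → ℂ} {ζ : G ℚ}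
    (hζ : ∀ g : G ℚ, g * ζ = ζ * g) {w : InfinitePlace ℚ} {m : ℝ → ℂ}
    (hm : n.MeanEig ψ w m) : n.MeanEig (fun x => ψ (x * ζ)) w m := by
  have sw : ∀ g y : G ℚ, g * y * ζ = g * ζ * y := fun g y => by
    rw [mul_assoc, hζ y, ← mul_assoc]
  cases n
  · intro t ht Y hY g
    have := hm t ht Y hY (g * ζ)
    simp only [sw]
    exact this
  · intro t ht Y hY g
    have := hm t ht Y hY (g * ζ)
    simp only [sw]
    exact this

/-- The translation by a central element preserves the class of every eigen-datum. -/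
theorem central_inClsQ802 {n : QWt} {𝔫 : Ideal (𝓞 ℚ)} {r : G ℚ}
    {u : HeightOneSpectrum (𝓞 ℚ)} {c : EigData ℚ} {ψ : G ℚ → ℂ} {ζ : G ℚ}
    (hζ : ∀ g : G ℚ, g * ζ = ζ * g) (hψ : SDQ140.InClsQ n 𝔫 r u c ψ) :
    SDQ140.InClsQ n 𝔫 r u c (fun x => ψ (x * ζ)) := by
  have sw : ∀ g y : G ℚ, g * y * ζ = g * ζ * y := fun g y => by
    rw [mul_assoc, hζ y, ← mul_assoc]
  refine ⟨⟨⟨?_, ?_, ⟨?_, ?_, ?_, ?_⟩, ?_⟩, ?_, ?_⟩, ?_, ?_⟩
  · exact hψ.inv.cusp.cont.comp (continuous_mul_const ζ)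
  · obtain ⟨C, hC⟩ := hψ.inv.cusp.bdd
    exact ⟨C, fun g => hC _⟩
  · intro γ g
    show ψ (T5.ratG γ * g * ζ) = ψ (g * ζ)
    rw [mul_assoc]
    exact hψ.inv.cusp.aut.left_inv γ _
  · intro u' hu' g
    show ψ (g * u' * ζ) = ψ (g * ζ)
    rw [sw]
    exact hψ.inv.cusp.aut.level_inv u' hu' _
  · intro w k hk g
    show ψ (g * k * ζ) = n.type k * ψ (g * ζ)
    rw [sw]
    exact hψ.inv.cusp.aut.arch_compact w k hk _
  · intro g
    show ψ (g * r * ζ) = ψ (g * ζ)
    rw [sw]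
    exact hψ.inv.cusp.aut.ray _
  · intro μ hμ D hD n' hn g
    have := hψ.inv.cusp.cuspidal μ hμ D hD n' hn (g * ζ)
    simp only [mul_assoc] at this ⊢
    exact this
  · intro w z' hz' g
    show ψ (g * z' * ζ) = ψ (g * ζ)
    rw [sw]
    exact hψ.inv.arch_scalar w z' hz' _
  · intro h h1 h2 h3 x
    show ψ (x * h * ζ) = ψ (x * ζ)
    rw [sw]
    exact hψ.inv.iw h h1 h2 h3 _
  · intro v hv
    obtain ⟨hT, hS⟩ := hψ.hecke v hv
    refine ⟨fun H hH g => ?_, fun z' hz' g => ?_⟩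
    · have := hT H hH (g * ζ)
      simp only [sw]
      exact this
    · show ψ (g * z' * ζ) = c.b v * ψ (g * ζ)
      rw [sw]
      exact hS z' hz' _
  · intro w
    exact central_meanEig802 n hζ (hψ.mean w)

/-- **The shift preserves the classes.** -/
theorem shift_inClsQ802 {n : QWt} {𝔫 : Ideal (𝓞 ℚ)} {r : G ℚ}
    {u : HeightOneSpectrum (𝓞 ℚ)} {z : G ℚ} (hz : IsScalarUniformizerAt u z)
    {c : EigData ℚ} {ψ : G ℚ → ℂ} (k : ℤ) (hψ : SDQ140.InClsQ n 𝔫 r u c ψ) :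
    SDQ140.InClsQ n 𝔫 r u c (shiftOp z k ψ) :=
  central_inClsQ802 (central_zpow468 hz k) hψ

/-! ## The circle means of `𝒰 ψ` -/

/-- A family supported at the infinite place `w` with components `M θ`, `M` continuous, is
continuous. -/
theorem continuous_circle802 (w : InfinitePlace ℚ) (M : ℝ → Matrix (Fin 2) (Fin 2) ℂ)
    (hM : Continuous M) (Y : ℝ → G ℚ)
    (hY : ∀ θ : ℝ, IsLocalAtInf w (Y θ) ∧ infComp w (Y θ) = M θ) : Continuous Y := by
  refine Fermat.Agent.LT.T2.H472.locCont472 ℚ w ℝ Y (fun θ => (hY θ).1) (fun i j => ?_)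
  have e : (fun θ : ℝ => infComp w (Y θ) i j) = fun θ => M θ i j := by
    funext θ
    rw [(hY θ).2]
  rw [e]
  exact hM.matrix_elem i j

theorem continuous_rotY_torus802 (t : ℝ) : Continuous fun θ : ℝ => rotY θ * torus t := by
  refine Continuous.matrix_mul ?_ continuous_const
  refine continuous_matrix fun i j => ?_
  fin_cases i <;> fin_cases j <;> simp [rotY] <;> fun_prop

theorem continuous_rotC_torus802 (t : ℝ) :
    Continuous fun θ : ℝ => QOut.rotC θ * torus t := by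
  refine Continuous.matrix_mul ?_ continuous_const
  refine continuous_matrix fun i j => ?_
  fin_cases i <;> fin_cases j <;> simp [QOut.rotC] <;> fun_prop

/-- `𝒰 ψ` is an eigenfunction of the circle means of weight `0`, with the same eigenvalues. -/
theorem meanEigR0_iwOp802 {u : HeightOneSpectrum (𝓞 ℚ)} {H : Finset (G ℚ)}
    (hH : ∀ h ∈ H, IsLocalAtFin u h) {ψ : G ℚ → ℂ} (hcont : Continuous ψ)
    {w : InfinitePlace ℚ} {m : ℝ → ℂ} (hm : MeanEigR0 ψ w m) :
    MeanEigR0 (iwOp u H ψ) w m := by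
  intro t ht Y hY g
  have hYc : Continuous Y := continuous_circle802 w _ (continuous_rotY_torus802 t) Y hY
  have hF : ∀ h : G ℚ, Continuous fun θ : ℝ => ψ (g * h * Y θ) := fun h =>
    hcont.comp (continuous_const.mul hYc)
  have hpt : ∀ θ : ℝ, iwOp u H ψ (g * Y θ)
      = ((Real.sqrt (Ideal.absNorm u.asIdeal : ℝ) : ℝ) : ℂ)⁻¹ * ∑ h ∈ H, ψ (g * h * Y θ) := by
    intro θ
    rw [iwOp_apply468]
    congr 1
    refine Finset.sum_congr rfl fun h hh => ?_
    rw [mul_assoc g, comm_local468 (hH h hh) ((hY θ).1.2 u), ← mul_assoc]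
  simp only [hpt]
  rw [intervalIntegral.integral_const_mul,
    intervalIntegral.integral_finsetSum (fun h _ => (hF h).intervalIntegrable _ _)]
  rw [iwOp_apply468]
  have e : ∑ h ∈ H, ∫ θ in (0 : ℝ)..(2 * Real.pi), ψ (g * h * Y θ)
      = m t * ∑ h ∈ H, ψ (g * h) := by
    rw [Finset.mul_sum]
    exact Finset.sum_congr rfl fun h _ => hm t ht Y hY (g * h)
  rw [e]
  ring

/-- `𝒰 ψ` is an eigenfunction of the circle means of weight one, with the same eigenvalues. -/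
theorem meanEigR1_iwOp802 {u : HeightOneSpectrum (𝓞 ℚ)} {H : Finset (G ℚ)}
    (hH : ∀ h ∈ H, IsLocalAtFin u h) {ψ : G ℚ → ℂ} (hcont : Continuous ψ)
    {w : InfinitePlace ℚ} {m : ℝ → ℂ} (hm : MeanEigR1 ψ w m) :
    MeanEigR1 (iwOp u H ψ) w m := by
  intro t ht Y hY g
  have hYc : Continuous Y := continuous_circle802 w _ (continuous_rotC_torus802 t) Y hY
  have hF : ∀ h : G ℚ, Continuous fun θ : ℝ =>
      Complex.exp (-(Complex.I * ((θ : ℝ) : ℂ))) * ψ (g * h * Y θ) := fun h =>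
    (by fun_prop : Continuous fun θ : ℝ => Complex.exp (-(Complex.I * ((θ : ℝ) : ℂ)))).mul
      (hcont.comp (continuous_const.mul hYc))
  have hpt : ∀ θ : ℝ, Complex.exp (-(Complex.I * ((θ : ℝ) : ℂ))) * iwOp u H ψ (g * Y θ)
      = ((Real.sqrt (Ideal.absNorm u.asIdeal : ℝ) : ℝ) : ℂ)⁻¹
        * ∑ h ∈ H, Complex.exp (-(Complex.I * ((θ : ℝ) : ℂ))) * ψ (g * h * Y θ) := by
    intro θ
    rw [iwOp_apply468, ← Finset.mul_sum, mul_left_comm]
    congr 2
    refine Finset.sum_congr rfl fun h hh => ?_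
    rw [mul_assoc g, comm_local468 (hH h hh) ((hY θ).1.2 u), ← mul_assoc]
  simp only [hpt]
  rw [intervalIntegral.integral_const_mul,
    intervalIntegral.integral_finsetSum (fun h _ => (hF h).intervalIntegrable _ _)]
  rw [iwOp_apply468]
  have e : ∑ h ∈ H, ∫ θ in (0 : ℝ)..(2 * Real.pi),
      Complex.exp (-(Complex.I * ((θ : ℝ) : ℂ))) * ψ (g * h * Y θ)
      = m t * ∑ h ∈ H, ψ (g * h) := by
    rw [Finset.mul_sum]
    exact Finset.sum_congr rfl fun h _ => hm t ht Y hY (g * h)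
  rw [e]
  ring

/-- `𝒰 ψ` is an eigenfunction of the circle means of type `n`, with the same eigenvalues. -/
theorem meanEig_iwOpQ802 (n : QWt) {u : HeightOneSpectrum (𝓞 ℚ)} {H : Finset (G ℚ)}
    (hH : ∀ h ∈ H, IsLocalAtFin u h) {ψ : G ℚ → ℂ} (hcont : Continuous ψ)
    {w : InfinitePlace ℚ} {m : ℝ → ℂ} (hm : n.MeanEig ψ w m) :
    n.MeanEig (iwOp u H ψ) w m := by
  cases n
  · exact meanEigR0_iwOp802 hH hcont hm
  · exact meanEigR1_iwOp802 hH hcont hm

/-! ## The Iwahori operator -/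

/-- **The Iwahori operator preserves the classes.** -/
theorem iw_inClsQ802 {n : QWt} {𝔫 : Ideal (𝓞 ℚ)} {r : G ℚ} {u : HeightOneSpectrum (𝓞 ℚ)}
    {H : Finset (G ℚ)} (hu : u.asIdeal ∣ 𝔫) (hr : T5.IsRayGen r) (hH : IsIwCosetSystem u H)
    {c : EigData ℚ} {ψ : G ℚ → ℂ} (hψ : SDQ140.InClsQ n 𝔫 r u c ψ) :
    SDQ140.InClsQ n 𝔫 r u c (iwOp u H ψ) := by
  have hloc : ∀ h ∈ H, IsLocalAtFin u h := fun h hh => (hH.2.1 h hh).1
  refine ⟨⟨⟨?_, ?_, ⟨?_, ?_, ?_, ?_⟩, ?_⟩, ?_, ?_⟩, ?_, ?_⟩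
  · exact continuous_iwOp468 u H hψ.inv.cusp.cont
  · exact bdd_iwOp468 u H hψ.inv.cusp.bdd
  · intro γ g
    rw [iwOp_apply468, iwOp_apply468]
    congr 1
    refine Finset.sum_congr rfl fun h _ => ?_
    rw [mul_assoc]
    exact hψ.inv.cusp.aut.left_inv γ _
  · intro u' hu' g
    exact iwOp_level468 hu hH hψ.inv.iw hψ.inv.cusp.aut.level_inv hu' g
  · intro w k hk g
    exact iwOp_eigen468 hloc (hk.1.2 u)
      (fun g => hψ.inv.cusp.aut.arch_compact w k hk g) g
  · intro g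
    have := iwOp_eigen468 hloc (hr.1 u) (c := 1)
      (fun g => by rw [one_mul]; exact hψ.inv.cusp.aut.ray g) g
    rwa [one_mul] at this
  · exact isCuspidalFn_iwOp468 u H hψ.inv.cusp.cont hψ.inv.cusp.bdd hψ.inv.cusp.cuspidal
  · intro w z' hz' g
    have := iwOp_eigen468 hloc (hz'.1.2 u) (c := 1)
      (fun g => by rw [one_mul]; exact hψ.inv.arch_scalar w z' hz' g) g
    rwa [one_mul] at this
  · intro κ h1 h2 h3 x
    exact iwOp_iw468 hH hψ.inv.iw ⟨h1, fun v hv => h2 v (fun j _ => hv)⟩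
      (h3 0 Nat.zero_lt_one) x
  · intro v hv
    have hvu : u ≠ v := fun e => hv (e ▸ hu)
    obtain ⟨hT, hS⟩ := hψ.hecke v hv
    refine ⟨fun H' hH' g => ?_, fun z' hz' g => ?_⟩
    · exact iwOp_sum_eigen468 hloc (fun h' hh' => (hH'.2.1 h' hh').1.2 u hvu) (hT H' hH') g
    · exact iwOp_eigen468 hloc (hz'.1.2 u hvu) (hS z' hz') g
  · intro w
    exact meanEig_iwOpQ802 n hloc hψ.inv.cusp.cont (hψ.mean w)

/-- **LEAF T7.L2Q.3.7.3 = DBQ.3 OPS, PROVED** (both types). -/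
theorem opsClassQC802 (n : QWt) : SDQ140.OpsClassQC n := by
  intro 𝔫 r u H z h𝔫 hn hr hu hH hz
  exact ⟨fun c ψ k hψ => shift_inClsQ802 hz k hψ, fun c ψ hψ => iw_inClsQ802 hu hr hH hψ,
    fun ψ k => iwOp_shiftOp468 hz H ψ k⟩

/-- Verbatim check against the frozen Prop of helper140. -/
example : ∀ n : QWt, SDQ140.OpsClassQC n := opsClassQC802

end Fermat.Agent.LT.T7.H802

end
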