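import Mathlib
import Fermat.Agent.LT.T7.B981.H503.StepSSpec

/-!
# Row LT, tower T7, leaf T7.L2.1.H2a.A.2.8 `SS503.PureShiftC503` (registry row 2876, owner
# helper802)

OFF-MAIN.  Complete proofs, nothing assumed.

    pureShiftC802 (K) : SS503.PureShiftC503 K        (VERBATIM, UNCONDITIONAL, every number field)

The right translate of a pure tensor by a power of a scalar uniformiser at `v ∈ P` is the pure
tensor for `T ∪ P` with the components extended by the unit outside `T` and the component at `v`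
translated.

Proof.  `y = h z^t`.  The components of `y` at `v' ≠ v` and at infinity are those of `h`, the
component at `v` is `h_v · (z^t)_v`.  Hence the component of the left side at every `v'` is
`(extU503 T f₀ v') (y_v')`, and `OutT305 (T ∪ P) h ↔ OutT305 (T ∪ P) y`.  `OutT305 T y` iff
`OutT305 (T ∪ P) y` and `y_v' ∈ GL₂(𝒪)` for `v' ∈ (T ∪ P) ∖ T`, i.e. the unit components are `1`
there.  No equation lemma of the specs is used (`if_pos` / `if_neg` / `rfl`).
-/

set_option autoImplicit false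

open AutomorphicForm IsDedekindDomain NumberField MeasureTheory

noncomputable section

namespace Fermat.Agent.LT.T7.H802

open Fermat.Agent.LT.H556 Fermat.Agent.LT.H556.A0 Fermat.Agent.LT.T7
open Fermat.Agent.LT.T7.H305 Fermat.Agent.LT.T7.H893 Fermat.Agent.LT.T7.B981.SS503

/-! ## 1. Local: `U(0) = GL₂(𝒪)` -/

section LocalPS

variable {k : Type} [Field k] [Valued k T6.Γ₀]

theorem val_one_entry_le802 (i j : Fin 2) :
    Valued.v ((1 : Matrix (Fin 2) (Fin 2) k) i j) ≤ 1 := by
  by_cases hij : i = j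
  · rw [hij, Matrix.one_apply_eq, Valuation.map_one]
  · rw [Matrix.one_apply_ne hij, Valuation.map_zero]
    exact zero_le

theorem val_sub_one_le_iff802 (a : k) (i j : Fin 2) :
    Valued.v (a - (1 : Matrix (Fin 2) (Fin 2) k) i j) ≤ 1 ↔ Valued.v a ≤ 1 := by
  have h1 := val_one_entry_le802 (k := k) i j
  constructor
  · intro h
    have e : a = (a - (1 : Matrix (Fin 2) (Fin 2) k) i j) + (1 : Matrix (Fin 2) (Fin 2) k) i j := by
      ring
    rw [e]
    exact (Valuation.map_add_le_max' _ _ _).trans (max_le h h1)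
  · intro h
    exact (Valuation.map_sub _ _ _).trans (max_le h h1)

/-- `U(0)` is `GL₂(𝒪)`: the entries of `x` and of `x⁻¹` are integral. -/
theorem inU_zero_iff802 (x : GL (Fin 2) k) :
    T6.InU 0 x ↔ (∀ i j : Fin 2, Valued.v ((x : Matrix (Fin 2) (Fin 2) k) i j) ≤ 1) ∧
      ∀ i j : Fin 2, Valued.v (((x⁻¹ : GL (Fin 2) k) : Matrix (Fin 2) (Fin 2) k) i j) ≤ 1 := by
  have e0 : WithZero.exp (-((0 : ℕ) : ℤ)) = (1 : T6.Γ₀) := by simp
  constructor
  · intro h
    refine ⟨fun i j => ?_, fun i j => ?_⟩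
    · have h1 := (h i j).1
      rw [e0] at h1
      exact (val_sub_one_le_iff802 _ i j).1 h1
    · have h1 := (h i j).2
      rw [e0] at h1
      exact (val_sub_one_le_iff802 _ i j).1 h1
  · rintro ⟨h1, h2⟩ i j
    refine ⟨?_, ?_⟩
    · rw [e0]
      exact (val_sub_one_le_iff802 _ i j).2 (h1 i j)
    · rw [e0]
      exact (val_sub_one_le_iff802 _ i j).2 (h2 i j)

end LocalPS

/-! ## 2. Components -/

section CompPS

variable {K : Type} [Field K] [NumberField K]

theorem val_finGL802 (v : HeightOneSpectrum (𝓞 K)) (y : G K) :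
    ((finGL305 v y : GL (Fin 2) (v.adicCompletion K)) :
      Matrix (Fin 2) (Fin 2) (v.adicCompletion K)) = finComp v y := rfl

theorem val_infGL802 (w : InfinitePlace K) (y : G K) :
    ((infGL305 w y : GL (Fin 2) ℂ) : Matrix (Fin 2) (Fin 2) ℂ) = infComp w y := rfl

/-- Integrality of `y` and `y⁻¹` at `v` is `U(0)` for the component. -/
theorem integral_iff_inU802 (v : HeightOneSpectrum (𝓞 K)) (y : G K) :
    (IsIntegralAt v y ∧ IsIntegralAt v y⁻¹) ↔ T6.InU 0 (finGL305 v y) := by
  rw [inU_zero_iff802, ← map_inv]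
  constructor
  · rintro ⟨h1, h2⟩
    exact ⟨fun i j => (HeightOneSpectrum.mem_adicCompletionIntegers _ _ _).1 (h1 i j),
      fun i j => (HeightOneSpectrum.mem_adicCompletionIntegers _ _ _).1 (h2 i j)⟩
  · rintro ⟨h1, h2⟩
    exact ⟨fun i j => (HeightOneSpectrum.mem_adicCompletionIntegers _ _ _).2 (h1 i j),
      fun i j => (HeightOneSpectrum.mem_adicCompletionIntegers _ _ _).2 (h2 i j)⟩

theorem outT_iff802 (T : Finset (HeightOneSpectrum (𝓞 K))) (y : G K) :
    OutT305 T y ↔ ∀ v : HeightOneSpectrum (𝓞 K), v ∉ T → T6.InU 0 (finGL305 v y) :=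
  forall_congr' fun v => imp_congr_right fun _ => integral_iff_inU802 v y

/-- The component at `v'` of an element which is trivial at `v'`. -/
theorem finGL_eq_one802 {v' : HeightOneSpectrum (𝓞 K)} {z : G K} (hz : TrivAtFin v' z) :
    finGL305 v' z = 1 := by
  apply Units.ext
  rw [val_finGL802]
  exact hz

theorem infGL_eq_one802 {w : InfinitePlace K} {z : G K} (hz : TrivAtInf w z) :
    infGL305 w z = 1 := by
  apply Units.ext
  rw [val_infGL802]
  ext i j
  show InfinitePlace.Completion.extensionEmbedding w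
      (((z : Matrix (Fin 2) (Fin 2) (Adl K)) i j).1 w) = (1 : Matrix (Fin 2) (Fin 2) ℂ) i j
  rw [hz i j]
  by_cases hij : i = j
  · rw [hij, Matrix.one_apply_eq, Matrix.one_apply_eq, map_one]
  · rw [Matrix.one_apply_ne hij, Matrix.one_apply_ne hij, map_zero]

end CompPS

/-! ## 3. The pure tensor -/

section PurePS

variable {K : Type} [Field K] [NumberField K]

theorem pure_pos802 {T : Finset (HeightOneSpectrum (𝓞 K))}
    (f₀ : ∀ v : HeightOneSpectrum (𝓞 K), GL (Fin 2) (v.adicCompletion K) → ℂ)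
    (F : InfinitePlace K → GL (Fin 2) ℂ → ℂ) {h : G K} (hO : OutT305 T h) :
    pure305 T f₀ F h
      = (∏ v ∈ T, f₀ v (finGL305 v h)) * ∏ w : InfinitePlace K, F w (infGL305 w h) :=
  if_pos hO

theorem pure_neg802 {T : Finset (HeightOneSpectrum (𝓞 K))}
    (f₀ : ∀ v : HeightOneSpectrum (𝓞 K), GL (Fin 2) (v.adicCompletion K) → ℂ)
    (F : InfinitePlace K → GL (Fin 2) ℂ → ℂ) {h : G K} (hO : ¬ OutT305 T h) :
    pure305 T f₀ F h = 0 :=
  if_neg hO

theorem unitFn_pos802 {k : Type} [Field k] [Valued k T6.Γ₀] {x : GL (Fin 2) k}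
    (hx : T6.InU 0 x) : unitFn893 0 x = 1 :=
  if_pos hx

theorem unitFn_neg802 {k : Type} [Field k] [Valued k T6.Γ₀] {x : GL (Fin 2) k}
    (hx : ¬ T6.InU 0 x) : unitFn893 0 x = 0 :=
  if_neg hx

theorem extU_mem802 {T : Finset (HeightOneSpectrum (𝓞 K))}
    (f₀ : ∀ v : HeightOneSpectrum (𝓞 K), GL (Fin 2) (v.adicCompletion K) → ℂ)
    {v : HeightOneSpectrum (𝓞 K)} (hv : v ∈ T) : extU503 T f₀ v = f₀ v :=
  if_pos hv

theorem extU_notMem802 {T : Finset (HeightOneSpectrum (𝓞 K))}
    (f₀ : ∀ v : HeightOneSpectrum (𝓞 K), GL (Fin 2) (v.adicCompletion K) → ℂ)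
    {v : HeightOneSpectrum (𝓞 K)} (hv : v ∉ T) : extU503 T f₀ v = unitFn893 0 :=
  if_neg hv

/-- **PURE-EXT for `extU503`.**  The pure tensor for `S ⊇ T` with the components extended by the
unit outside `T` is the pure tensor for `T`. -/
theorem pure_extU802 {T S : Finset (HeightOneSpectrum (𝓞 K))} (hTS : T ⊆ S)
    (f₀ : ∀ v : HeightOneSpectrum (𝓞 K), GL (Fin 2) (v.adicCompletion K) → ℂ)
    (F : InfinitePlace K → GL (Fin 2) ℂ → ℂ) (y : G K) :
    pure305 S (extU503 T f₀) F y = pure305 T f₀ F y := by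
  classical
  by_cases hOT : OutT305 T y
  · have hOT' := (outT_iff802 T y).1 hOT
    have hOS : OutT305 S y := fun v hv => hOT v (fun hvT => hv (hTS hvT))
    rw [pure_pos802 _ _ hOS, pure_pos802 _ _ hOT]
    congr 1
    rw [← Finset.prod_subset hTS (fun v _ hvT => by
      rw [extU_notMem802 f₀ hvT]
      exact unitFn_pos802 (hOT' v hvT))]
    exact Finset.prod_congr rfl (fun v hv => by rw [extU_mem802 f₀ hv])
  · rw [pure_neg802 _ _ hOT]
    by_cases hOS : OutT305 S y
    · rw [pure_pos802 _ _ hOS]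
      have hex : ∃ v : HeightOneSpectrum (𝓞 K), v ∉ T ∧ ¬ T6.InU 0 (finGL305 v y) := by
        by_contra hcon
        apply hOT
        rw [outT_iff802]
        intro v hv
        by_contra hv'
        exact hcon ⟨v, hv, hv'⟩
      obtain ⟨v, hvT, hv⟩ := hex
      have hvS : v ∈ S := by
        by_contra hvS
        exact hv ((outT_iff802 S y).1 hOS v hvS)
      have h0 : ∏ v' ∈ S, extU503 T f₀ v' (finGL305 v' y) = 0 := by
        refine Finset.prod_eq_zero hvS ?_
        rw [extU_notMem802 f₀ hvT]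
        exact unitFn_neg802 hv
      rw [h0, zero_mul]
    · exact pure_neg802 _ _ hOS

/-- **LEAF SS.8 = PURE-SHIFT.** -/
theorem pureShiftC802 (K : Type) [Field K] [NumberField K] : PureShiftC503 K := by
  classical
  intro T P f₀ F v hvP z hz t h
  obtain ⟨⟨hzinf, hzfin⟩, -⟩ := hz
  have hvS : v ∈ T ∪ P := Finset.mem_union_right T hvP
  -- the components of `y = h z^t`
  have hfin : ∀ v' : HeightOneSpectrum (𝓞 K), v' ≠ v →
      finGL305 v' (h * z ^ t) = finGL305 v' h := by
    intro v' hv'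
    rw [map_mul, map_zpow, finGL_eq_one802 (hzfin v' hv'), one_zpow, mul_one]
  have hinf : ∀ w : InfinitePlace K, infGL305 w (h * z ^ t) = infGL305 w h := by
    intro w
    rw [map_mul, map_zpow, infGL_eq_one802 (hzinf w), one_zpow, mul_one]
  -- the components of the left side
  have hcomp : ∀ v' : HeightOneSpectrum (𝓞 K),
      trC503 v (finGL305 v (z ^ t)) (extU503 T f₀) v' (finGL305 v' h)
        = extU503 T f₀ v' (finGL305 v' (h * z ^ t)) := by
    intro v'
    by_cases hv' : v' = v
    · subst hv'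
      show Function.update (extU503 T f₀) v'
          (fun x => extU503 T f₀ v' (x * finGL305 v' (z ^ t))) v' (finGL305 v' h) = _
      rw [Function.update_self, map_mul]
    · show Function.update (extU503 T f₀) v
          (fun x => extU503 T f₀ v (x * finGL305 v (z ^ t))) v' (finGL305 v' h) = _
      rw [Function.update_of_ne hv', hfin v' hv']
  have hOut : OutT305 (T ∪ P) h ↔ OutT305 (T ∪ P) (h * z ^ t) := by
    rw [outT_iff802, outT_iff802]
    refine forall_congr' fun v' => imp_congr_right fun hv'S => ?_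
    have hne : v' ≠ v := fun e => hv'S (e ▸ hvS)
    rw [hfin v' hne]
  -- the left side is the pure tensor of the extended components at `y`
  have hL : pure305 (T ∪ P) (trC503 v (finGL305 v (z ^ t)) (extU503 T f₀)) F h
      = pure305 (T ∪ P) (extU503 T f₀) F (h * z ^ t) := by
    by_cases hO : OutT305 (T ∪ P) h
    · rw [pure_pos802 _ _ hO, pure_pos802 _ _ (hOut.1 hO)]
      congr 1
      · exact Finset.prod_congr rfl (fun v' _ => hcomp v')
      · exact Finset.prod_congr rfl (fun w _ => by rw [hinf w])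
    · rw [pure_neg802 _ _ hO, pure_neg802 _ _ (fun hO' => hO (hOut.2 hO'))]
  rw [hL]
  exact pure_extU802 Finset.subset_union_left f₀ F (h * z ^ t)

end PurePS

/-- Verbatim check. -/
example (K : Type) [Field K] [NumberField K] :
    Fermat.Agent.LT.T7.B981.SS503.PureShiftC503 K := pureShiftC802 K

end Fermat.Agent.LT.T7.H802

end
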